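import Fermat.Prelude.Def_FLTPrelim_CofixedLine
import Fermat.Prelude.Def_FLTPrelim_FreyPackage
import Fermat.Prelude.Def_FLTPrelim_GaloisRep
import Fermat.Prelude.Def_FLTPrelim_ModularRep
import Fermat.Prelude.Def_FLTPrelim_Modularity
import Fermat.Prelude.Def_FLTPrelim_Ramification
import Fermat.Prelude.Def_FreyPackage_IsConductorLevel
import Fermat.Agent.S02

/-!
# Reduction of Fermat's Last Theorem to the Frey curve

* `fermat_of_noFreyPackage`: it suffices that no Frey package exists, the exponents `3` and `4`
  being Mathlib's `fermatLastTheoremThree` and `fermatLastTheoremFour`.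
* `noFreyPackage_of_levelTwo`: modularity, irreducibility, lowering to level `2` and the absence
  of cusp forms of weight `2` and level `2` exclude a Frey package.
* `irreducible_of_cofixed`: irreducibility from the exclusion of Galois-stable lines with trivial
  quotient action, case by case in the prime.
-/

set_option autoImplicit false

namespace Fermat.Agent.TopWiring

open WeierstrassCurve WeierstrassCurve.Affine WeierstrassCurve.Affine.Point

/-- Fermat's Last Theorem holds if there is no Frey package: a counterexample with prime exponent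
`p ≥ 5` gives one. -/
theorem fermat_of_noFreyPackage (h03 : FreyPackage → False)
    (n : ℕ) (hn : 3 ≤ n) (a b c : ℕ) (ha : 0 < a) (hb : 0 < b) (hc : 0 < c) :
    a ^ n + b ^ n ≠ c ^ n := by
  have hFLT : FermatLastTheorem := by
    refine FermatLastTheorem.of_odd_primes fun p pp hodd => ?_
    rcases lt_or_ge p 5 with h5 | h5
    · have h3 : p = 3 := by
        have := pp.two_le
        have := Nat.odd_iff.1 hodd
        omega
      subst h3
      exact fermatLastTheoremThree
    · rw [fermatLastTheoremFor_iff_int]
      intro x y z hx hy hz H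
      obtain ⟨P⟩ := Fermat.Agent.S02.result x y z hx hy hz p pp h5 H
      exact h03 P
  exact hFLT n hn a b c ha.ne' hb.ne' hc.ne'

/-- There is no Frey package if Frey curves are modular and irreducible at `p` and so lower to a
nonzero cusp form of weight `2` and level `2`, of which there is none. -/
theorem noFreyPackage_of_levelTwo
    (h04 : ∀ P : FreyPackage, P.freyCurve.IsModular)
    (h09 : ∀ P : FreyPackage,
      GaloisRepIsIrreducible (K := AlgebraicClosure ℚ) ℚ P.freyCurve P.p)
    (h45 : ∀ P : FreyPackage, P.freyCurve.IsModular →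
      GaloisRepIsIrreducible (K := AlgebraicClosure ℚ) ℚ P.freyCurve P.p →
      ∃ f : CuspForm (CongruenceSubgroup.Gamma0 2) 2, f ≠ 0)
    (h07 : ∀ f : CuspForm (CongruenceSubgroup.Gamma0 2) 2, f = 0)
    (P : FreyPackage) : False := by
  obtain ⟨f, hf⟩ := h45 P (h04 P) (h09 P)
  exact hf (h07 f)

/-- The Frey representation is irreducible if a reducible one gives a cofixed line and no prime
`p ≥ 5` allows such a line. -/
theorem irreducible_of_cofixed
    (h10 : ∀ P : FreyPackage, P.p = 5 ∨ P.p = 7 ∨ P.p = 13 →
      ¬ HasGaloisStableCofixedLine (K := AlgebraicClosure ℚ) ℚ P.freyCurve P.p)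
    (h11 : ∀ P : FreyPackage, P.p = 11 →
      ¬ HasGaloisStableCofixedLine (K := AlgebraicClosure ℚ) ℚ P.freyCurve P.p)
    (h12 : ∀ P : FreyPackage, 17 ≤ P.p →
      ¬ HasGaloisStableCofixedLine (K := AlgebraicClosure ℚ) ℚ P.freyCurve P.p)
    (h13 : ∀ P : FreyPackage,
      ¬ GaloisRepIsIrreducible (K := AlgebraicClosure ℚ) ℚ P.freyCurve P.p →
      HasGaloisStableCofixedLine (K := AlgebraicClosure ℚ) ℚ P.freyCurve P.p)
    (P : FreyPackage) :
    GaloisRepIsIrreducible (K := AlgebraicClosure ℚ) ℚ P.freyCurve P.p := by
  by_contra h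
  have hc := h13 P h
  have h5 := P.hp5
  have hpp := P.pp
  rcases lt_or_ge P.p 17 with hlt | hge
  · rcases eq_or_ne P.p 11 with h' | h'
    · exact h11 P h' hc
    · refine h10 P ?_ hc
      generalize P.p = p at h5 hpp hlt h'
      interval_cases p <;> first | omega | (norm_num at hpp)
  · exact h12 P hge hc

end Fermat.Agent.TopWiring
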